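/-
Program C (S55), package C8, leaf R3f (rational half) of helper29's REC chain (#2282).

For a nonzero rational `r` which is a `q`-adic one-unit at every prime `q ∣ m` (`m` squarefree),
the element `∏_ℓ ℓ ^ v_ℓ(r)` of `(ℤ/m)ˣ` (product over the primes `ℓ ∤ m` in the support of `r`)
is `±1`; hence its square is `1`.  This is the statement "`|N_{k/ℚ}(a')| ≡ ±1 mod m`" used to
kill `Σ_v ord_v(a') χ(Frob_v)` for a character `χ` of odd order.

Mathlib only.  (helper5)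
-/
import Mathlib

set_option autoImplicit false

noncomputable section

namespace Fermat.Agent.S55.H5

/-- The unit of `ZMod m` attached to a natural number prime to `m` (junk value `1` otherwise). -/
def uMod (m n : ℕ) : (ZMod m)ˣ :=
  if h : Nat.Coprime n m then ZMod.unitOfCoprime n h else 1

theorem uMod_coe {m n : ℕ} (h : Nat.Coprime n m) : ((uMod m n : (ZMod m)ˣ) : ZMod m) = n := by
  rw [uMod, dif_pos h, ZMod.coe_unitOfCoprime]

theorem uMod_mul {m a b : ℕ} (ha : Nat.Coprime a m) (hb : Nat.Coprime b m) :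
    uMod m (a * b) = uMod m a * uMod m b := by
  apply Units.ext
  rw [Units.val_mul, uMod_coe ha, uMod_coe hb, uMod_coe (Nat.Coprime.mul_left ha hb)]
  push_cast
  rfl

/-- The unit of a natural number as the product over its prime factorisation. -/
theorem uMod_eq_prod {m n : ℕ} (hn : n ≠ 0) (h : Nat.Coprime n m) :
    uMod m n = ∏ ℓ ∈ n.primeFactors, uMod m ℓ ^ n.factorization ℓ := by
  apply Units.ext
  rw [uMod_coe h, Units.coe_prod]
  have h1 : ∀ ℓ ∈ n.primeFactors,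
      ((uMod m ℓ ^ n.factorization ℓ : (ZMod m)ˣ) : ZMod m) = ((ℓ ^ n.factorization ℓ : ℕ) : ZMod m) := by
    intro ℓ hℓ
    have hℓn : ℓ ∣ n := Nat.dvd_of_mem_primeFactors hℓ
    have hc : Nat.Coprime ℓ m := Nat.Coprime.coprime_dvd_left hℓn h
    rw [Units.val_pow_eq_pow_val, uMod_coe hc]
    push_cast
    rfl
  rw [Finset.prod_congr rfl h1, ← Nat.cast_prod]
  congr 1
  have h2 := Nat.prod_factorization_pow_eq_self hn
  rw [Finsupp.prod, Nat.support_factorization] at h2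
  exact h2.symm

/-- The same product over any finite set of primes containing the prime factors. -/
theorem uMod_eq_prod_of_subset {m n : ℕ} (hn : n ≠ 0) (h : Nat.Coprime n m) (T : Finset ℕ)
    (hT : n.primeFactors ⊆ T) :
    uMod m n = ∏ ℓ ∈ T, uMod m ℓ ^ n.factorization ℓ := by
  rw [uMod_eq_prod hn h]
  refine Finset.prod_subset hT (fun ℓ _ hℓ => ?_)
  have h0 : n.factorization ℓ = 0 := by
    rw [← Finsupp.notMem_support_iff, Nat.support_factorization]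
    exact hℓ
  rw [h0, pow_zero]

/-- **The prime-factorisation product of a rational number in `(ℤ/m)ˣ`.** -/
theorem prod_uMod_zpow (m : ℕ) (r : ℚ) (hr : r ≠ 0) (hden : Nat.Coprime r.den m)
    (hnum : Nat.Coprime r.num.natAbs m) (T : Finset ℕ) (hT : ∀ ℓ ∈ T, ℓ.Prime)
    (hsupp : ∀ ℓ : ℕ, ℓ.Prime → padicValRat ℓ r ≠ 0 → ℓ ∈ T) :
    ∏ ℓ ∈ T, uMod m ℓ ^ padicValRat ℓ r = uMod m r.num.natAbs * (uMod m r.den)⁻¹ := by
  have hnum0 : r.num.natAbs ≠ 0 := Int.natAbs_ne_zero.2 (Rat.num_ne_zero.2 hr)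
  have hden0 : r.den ≠ 0 := r.den_nz
  -- enlarge `T`
  set T' : Finset ℕ := T ∪ r.num.natAbs.primeFactors ∪ r.den.primeFactors with hT'
  have hTT' : T ⊆ T' := fun ℓ hℓ => by
    rw [hT']; exact Finset.mem_union_left _ (Finset.mem_union_left _ hℓ)
  have hval : ∀ ℓ : ℕ, ℓ.Prime → padicValRat ℓ r =
      (r.num.natAbs.factorization ℓ : ℤ) - (r.den.factorization ℓ : ℤ) := by
    intro ℓ hℓ
    rw [padicValRat_def, Nat.factorization_def _ hℓ, Nat.factorization_def _ hℓ]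
    rfl
  have hT'p : ∀ ℓ ∈ T', ℓ.Prime := by
    intro ℓ hℓ
    rw [hT', Finset.mem_union, Finset.mem_union] at hℓ
    rcases hℓ with (hℓ | hℓ) | hℓ
    · exact hT ℓ hℓ
    · exact Nat.prime_of_mem_primeFactors hℓ
    · exact Nat.prime_of_mem_primeFactors hℓ
  have h1 : ∏ ℓ ∈ T, uMod m ℓ ^ padicValRat ℓ r = ∏ ℓ ∈ T', uMod m ℓ ^ padicValRat ℓ r := by
    refine Finset.prod_subset hTT' (fun ℓ hℓ hℓT => ?_)
    have h0 : padicValRat ℓ r = 0 := by
      by_contra hne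
      exact hℓT (hsupp ℓ (hT'p ℓ hℓ) hne)
    rw [h0, zpow_zero]
  rw [h1, uMod_eq_prod_of_subset hnum0 hnum T' (fun ℓ hℓ => by
      rw [hT']; exact Finset.mem_union_left _ (Finset.mem_union_right _ hℓ)),
    uMod_eq_prod_of_subset hden0 hden T' (fun ℓ hℓ => by
      rw [hT']; exact Finset.mem_union_right _ hℓ), ← Finset.prod_inv_distrib,
    ← Finset.prod_mul_distrib]
  refine Finset.prod_congr rfl (fun ℓ hℓ => ?_)
  rw [hval ℓ (hT'p ℓ hℓ), zpow_sub, zpow_natCast, zpow_natCast]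

theorem natAbs_cast_zmod (m : ℕ) (z : ℤ) :
    ((z.natAbs : ℕ) : ZMod m) = ((z : ℤ) : ZMod m) ∨
      ((z.natAbs : ℕ) : ZMod m) = -((z : ℤ) : ZMod m) := by
  have hab : ((z.natAbs : ℕ) : ZMod m) = ((|z| : ℤ) : ZMod m) := by
    rw [← Int.natCast_natAbs, Int.cast_natCast]
  rcases abs_choice z with h | h
  · left
    rw [hab, h]
  · right
    rw [hab, h, Int.cast_neg]

/-- If `num ≡ den mod m`, the product is `±1`. -/
theorem prod_uMod_zpow_eq_one_or (m : ℕ) (r : ℚ) (hr : r ≠ 0) (hden : Nat.Coprime r.den m)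
    (hcong : (m : ℤ) ∣ r.num - r.den) (T : Finset ℕ) (hT : ∀ ℓ ∈ T, ℓ.Prime)
    (hsupp : ∀ ℓ : ℕ, ℓ.Prime → padicValRat ℓ r ≠ 0 → ℓ ∈ T) :
    ∏ ℓ ∈ T, uMod m ℓ ^ padicValRat ℓ r = 1 ∨ ∏ ℓ ∈ T, uMod m ℓ ^ padicValRat ℓ r = -1 := by
  have hcast : ((r.num : ℤ) : ZMod m) = ((r.den : ℕ) : ZMod m) := by
    have h0 : (((r.num - r.den : ℤ)) : ZMod m) = 0 :=
      (ZMod.intCast_zmod_eq_zero_iff_dvd _ _).2 hcong
    push_cast at h0
    exact sub_eq_zero.1 h0
  have hu : IsUnit ((r.den : ℕ) : ZMod m) := (ZMod.isUnit_iff_coprime _ _).2 hden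
  have hnum : Nat.Coprime r.num.natAbs m := by
    have hu' : IsUnit ((r.num.natAbs : ℕ) : ZMod m) := by
      rcases natAbs_cast_zmod m r.num with h | h
      · rw [h, hcast]
        exact hu
      · rw [h, hcast]
        exact hu.neg
    exact (ZMod.isUnit_iff_coprime _ _).1 hu'
  rw [prod_uMod_zpow m r hr hden hnum T hT hsupp]
  rcases natAbs_cast_zmod m r.num with h | h
  · left
    rw [mul_inv_eq_one]
    apply Units.ext
    rw [uMod_coe hnum, uMod_coe hden, h, hcast]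
  · right
    rw [mul_inv_eq_iff_eq_mul, neg_one_mul]
    apply Units.ext
    rw [Units.val_neg, uMod_coe hnum, uMod_coe hden, h, hcast]

/-- Consequently its square is `1`. -/
theorem prod_uMod_zpow_sq (m : ℕ) (r : ℚ) (hr : r ≠ 0) (hden : Nat.Coprime r.den m)
    (hcong : (m : ℤ) ∣ r.num - r.den) (T : Finset ℕ) (hT : ∀ ℓ ∈ T, ℓ.Prime)
    (hsupp : ∀ ℓ : ℕ, ℓ.Prime → padicValRat ℓ r ≠ 0 → ℓ ∈ T) :
    (∏ ℓ ∈ T, uMod m ℓ ^ padicValRat ℓ r) ^ 2 = 1 := by
  rcases prod_uMod_zpow_eq_one_or m r hr hden hcong T hT hsupp with h | h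
  · rw [h, one_pow]
  · rw [h]
    simp

/-! ### The `q`-adic form of the hypotheses -/

/-- A rational number which is a `q`-adic one-unit has numerator and denominator prime to `q`
and congruent modulo `q`. -/
theorem rat_oneUnit (q : ℕ) [Fact q.Prime] (r : ℚ) (h : ‖((r : ℚ) : ℚ_[q]) - 1‖ < 1) :
    (q : ℤ) ∣ r.num - r.den ∧ ¬ q ∣ r.den ∧ ¬ q ∣ r.num.natAbs := by
  have hden0 : ((r.den : ℕ) : ℚ_[q]) ≠ 0 := by exact_mod_cast r.den_nz
  have h1 : (((r.num - r.den : ℤ) : ℤ) : ℚ_[q]) = ((r : ℚ_[q]) - 1) * ((r.den : ℕ) : ℚ_[q]) := by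
    have hr : ((r : ℚ) : ℚ_[q]) = ((r.num : ℤ) : ℚ_[q]) / ((r.den : ℕ) : ℚ_[q]) := by
      conv_lhs => rw [← Rat.num_div_den r]
      push_cast
      rfl
    rw [hr]
    push_cast
    field_simp
  have h2 : ‖(((r.num - r.den : ℤ) : ℤ) : ℚ_[q])‖ < 1 := by
    rw [h1, norm_mul]
    have h3 : ‖((r.den : ℕ) : ℚ_[q])‖ ≤ 1 := by
      have := Padic.norm_int_le_one (p := q) (r.den : ℤ)
      simpa using this
    calc ‖(r : ℚ_[q]) - 1‖ * ‖((r.den : ℕ) : ℚ_[q])‖ ≤ ‖(r : ℚ_[q]) - 1‖ * 1 :=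
          mul_le_mul_of_nonneg_left h3 (norm_nonneg _)
      _ < 1 := by rw [mul_one]; exact h
  have hdvd : (q : ℤ) ∣ r.num - r.den := Padic.norm_intCast_lt_one_iff.1 h2
  have hcop : Nat.Coprime r.num.natAbs r.den := r.reduced
  have hq : q.Prime := Fact.out
  refine ⟨hdvd, fun hd => ?_, fun hn => ?_⟩
  · have hd' : (q : ℤ) ∣ (r.den : ℤ) := Int.natCast_dvd_natCast.2 hd
    have hn' : (q : ℤ) ∣ r.num := by
      have := dvd_add hdvd hd'
      simpa using this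
    have hn'' : q ∣ r.num.natAbs := Int.natCast_dvd.1 hn'
    exact hq.one_lt.ne' (Nat.eq_one_of_dvd_coprimes hcop hn'' hd)
  · have hn' : (q : ℤ) ∣ r.num := Int.natCast_dvd.2 hn
    have hd' : (q : ℤ) ∣ (r.den : ℤ) := by
      have := dvd_sub hn' hdvd
      simpa using this
    have hd'' : q ∣ r.den := Int.natCast_dvd_natCast.1 hd'
    exact hq.one_lt.ne' (Nat.eq_one_of_dvd_coprimes hcop hn hd'')

/-- **Leaf R3f, rational half**: for `m` squarefree and `r ≠ 0` a `q`-adic one-unit at every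
prime `q ∣ m`, the element `∏_ℓ ℓ ^ v_ℓ(r)` of `(ℤ/m)ˣ` has square `1`. -/
theorem prod_uMod_zpow_sq_of_oneUnit (m : ℕ) (hm : Squarefree m) (r : ℚ) (hr : r ≠ 0)
    (hunit : ∀ (q : ℕ) [Fact q.Prime], q ∣ m → ‖((r : ℚ) : ℚ_[q]) - 1‖ < 1)
    (T : Finset ℕ) (hT : ∀ ℓ ∈ T, ℓ.Prime)
    (hsupp : ∀ ℓ : ℕ, ℓ.Prime → padicValRat ℓ r ≠ 0 → ℓ ∈ T) :
    (∏ ℓ ∈ T, uMod m ℓ ^ padicValRat ℓ r) ^ 2 = 1 := by
  have hden : Nat.Coprime r.den m := by
    refine Nat.coprime_of_dvd (fun k hk hkd hkm => ?_)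
    have : Fact k.Prime := ⟨hk⟩
    exact (rat_oneUnit k r (hunit k hkm)).2.1 hkd
  have hcong : (m : ℤ) ∣ r.num - r.den := by
    rw [Int.natCast_dvd]
    rw [← Nat.prod_primeFactors_of_squarefree hm]
    refine Finset.prod_primes_dvd _ (fun a ha => (Nat.prime_of_mem_primeFactors ha).prime)
      (fun a ha => ?_)
    have : Fact a.Prime := ⟨Nat.prime_of_mem_primeFactors ha⟩
    exact Int.natCast_dvd.1 (rat_oneUnit a r (hunit a (Nat.dvd_of_mem_primeFactors ha))).1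
  exact prod_uMod_zpow_sq m r hr hden hcong T hT hsupp

end Fermat.Agent.S55.H5
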