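/-
Program C (S55), package C8, leaf R3f (local–global half) of helper29's REC chain (#2282):
THE PRODUCT FORMULA MODULO `m`, in helper88's embedding model (`PlaceAbove`, `FinPlace`,
`locField`) with helper66's local invariants (`ord`, `resCard`).

* `nrm_pow_finrank`     : `‖x‖ ^ [F : ℚ_q] = #k_F ^ (-ord x)` for an embedded local field `F`;
* `norm_algebraNorm_eq` : `‖N_{k/ℚ}(a)‖_q = ∏_{v ∣ q} #k_v ^ (-ord_v a)`              (LG);
* `norm_one_sub_lt_one` : `a` a one-unit at all embeddings over `q` ⇒ `N(a)` a `q`-adic one-unit;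
* `prod_uMod_place`     : for `q ∤ m`,
    `∏_{v ∣ q} (#k_v mod m) ^ ord_v(a) = (q mod m) ^ v_q(N a)` in `(ℤ/m)ˣ`;
* `prodFormula_sq`      : `m` squarefree, `a ∈ kˣ` a one-unit at all embeddings over the primes
    dividing `m` ⇒ `(∏ᶠ v : FinPlace k, (#k_v mod m) ^ ord_v(a)) ^ 2 = 1`               (PF).
(helper5)
-/
import Mathlib
import Fermat.Agent.S55.H5.RatUnit
import Fermat.Agent.S55.H66.LocalBridge
import Fermat.Agent.S55.H39.FundId
import Fermat.Agent.S55.H41.SumLocalDegree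
import Fermat.Agent.S55.H65.FiniteNonunitCore
import Fermat.Agent.S55.H88.SemiLocalSpec

set_option autoImplicit false

open scoped IntermediateField
open Module

noncomputable section

namespace Fermat.Agent.S55.H5

open Fermat.Agent.S55.H66 Fermat.Agent.S55.H88

/-! ### Local: `‖x‖ ^ [F : ℚ_q] = #k_F ^ (-ord x)` -/

section Local

variable (q : ℕ) [Fact q.Prime]
variable (F : Type) [Field F] [Algebra ℚ_[q] F] [Algebra F (PadicAlgCl q)]
  [IsScalarTower ℚ_[q] F (PadicAlgCl q)] [FiniteDimensional ℚ_[q] F]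

/-- `unifNrm ^ [F : ℚ_q] = 1 / #k_F` and `#k_F` is a power of `q`. -/
theorem unifNrm_pow_finrank :
    unifNrm q F ^ finrank ℚ_[q] F = ((resCard q F : ℕ) : ℝ)⁻¹ ∧
      ∃ f : ℕ, resCard q F = q ^ f := by
  obtain ⟨hu0, hu1, ⟨π, hπ⟩, hord⟩ := leafOrd q F
  have hπ0 : π ≠ 0 := by
    rintro rfl
    have h0 : nrm q (0 : F) = 0 := by simp [nrm]
    rw [h0] at hπ
    exact hu0.ne hπ
  have hπ1 : nrm q π < 1 := hπ ▸ hu1
  have hπg : ∀ x : F, x ≠ 0 → ∃ n : ℤ, nrm q x = nrm q π ^ n := fun x hx =>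
    ⟨ord q x, by rw [hπ]; exact hord x hx⟩
  obtain ⟨e, he, hqe, hQe⟩ := H39.fundId_abs hπ0 hπ1 hπg
  rw [hπ] at hqe
  have hq : q.Prime := Fact.out
  have hqpos : (0 : ℝ) < q := by exact_mod_cast hq.pos
  constructor
  · have h1 : (unifNrm q F ^ finrank ℚ_[q] F) ^ e = (((resCard q F : ℕ) : ℝ)⁻¹) ^ e := by
      rw [← pow_mul, mul_comm, pow_mul, hqe, inv_pow, inv_pow]
      congr 1
      exact_mod_cast hQe.symm
    exact (pow_left_inj₀ (pow_nonneg hu0.le _) (inv_nonneg.2 (Nat.cast_nonneg _)) he.ne').1 h1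
  · have hdvd : resCard q F ∣ q ^ finrank ℚ_[q] F := by
      rw [← hQe]
      exact dvd_pow_self _ he.ne'
    obtain ⟨f, -, hf⟩ := (Nat.dvd_prime_pow hq).1 hdvd
    exact ⟨f, hf⟩

/-- **Local norm formula**: `‖x‖ ^ [F : ℚ_q] = #k_F ^ (-ord x)`. -/
theorem nrm_pow_finrank (x : F) (hx : x ≠ 0) :
    nrm q x ^ finrank ℚ_[q] F = ((resCard q F : ℕ) : ℝ) ^ (-(ord q x)) := by
  obtain ⟨hu0, -, -, hord⟩ := leafOrd q F
  rw [hord x hx, ← zpow_natCast, ← zpow_mul, mul_comm, zpow_mul, zpow_natCast,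
    (unifNrm_pow_finrank q F).1, inv_zpow, zpow_neg]

end Local

/-! ### Global: the norm as a product over the places above `q` -/

section Global

variable (q : ℕ) [Fact q.Prime]
variable (k : Type*) [Field k] [NumberField k]

theorem norm_algEquiv_eq (g : PadicAlgCl q ≃ₐ[ℚ_[q]] PadicAlgCl q) (x : PadicAlgCl q) :
    ‖g x‖ = ‖x‖ :=
  (spectralNorm_eq_of_equiv g x).symm

omit [NumberField k] in
/-- The norm of an element at the embeddings of one place is constant. -/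
theorem norm_emb_eq_of_placeOf {τ : k →+* PadicAlgCl q} {v : PlaceAbove q k}
    (h : placeOf q τ = v) (a : k) : ‖τ a‖ = ‖v.emb a‖ := by
  have h1 : (placeSetoid q k).r v.emb τ := (H41.fibreEquiv q k v ⟨τ, h⟩).2
  obtain ⟨g, rfl⟩ := h1
  exact norm_algEquiv_eq q g _

/-- `‖N_{k/ℚ}(a)‖_q = ∏_τ ‖τ a‖`. -/
theorem norm_algebraNorm_eq_prod_emb (a : k) :
    ‖(((Algebra.norm ℚ a : ℚ)) : ℚ_[q])‖ = ∏ τ : k →+* PadicAlgCl q, ‖τ a‖ := by
  have h1 := Algebra.norm_eq_prod_embeddings ℚ (PadicAlgCl q) a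
  have h2 : algebraMap ℚ (PadicAlgCl q) (Algebra.norm ℚ a) =
      algebraMap ℚ_[q] (PadicAlgCl q) (((Algebra.norm ℚ a : ℚ)) : ℚ_[q]) := by
    rw [IsScalarTower.algebraMap_apply ℚ ℚ_[q] (PadicAlgCl q), eq_ratCast]
  rw [← PadicAlgCl.norm_extends, ← h2, h1, norm_prod]
  exact (Fintype.prod_equiv (RingHom.equivRatAlgHom k (PadicAlgCl q)) _ _ (fun τ => rfl)).symm

/-- `‖N_{k/ℚ}(a)‖_q = ∏_{v ∣ q} ‖τ_v a‖ ^ [k_v : ℚ_q]`. -/
theorem norm_algebraNorm_eq_prod_place [Fintype (PlaceAbove q k)] (a : k) :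
    ‖(((Algebra.norm ℚ a : ℚ)) : ℚ_[q])‖ =
      ∏ v : PlaceAbove q k, ‖v.emb a‖ ^ finrank ℚ_[q] (locField q v.emb) := by
  classical
  rw [norm_algebraNorm_eq_prod_emb, ← Fintype.prod_fiberwise (placeOf q (K := k))]
  refine Finset.prod_congr rfl (fun v _ => ?_)
  have h1 : ∀ τ : {τ : k →+* PadicAlgCl q // placeOf q τ = v}, ‖(τ : k →+* PadicAlgCl q) a‖ =
      ‖v.emb a‖ := fun τ => norm_emb_eq_of_placeOf q k τ.2 a
  rw [Finset.prod_congr rfl (fun τ _ => h1 τ), Finset.prod_const, Finset.card_univ,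
    ← Nat.card_eq_fintype_card, Nat.card_congr (H41.fibreEquiv q k v), H41.natCard_orbit]

/-- **(LG)** `‖N_{k/ℚ}(a)‖_q = ∏_{v ∣ q} #k_v ^ (-ord_v a)`. -/
theorem norm_algebraNorm_eq [Fintype (PlaceAbove q k)] (a : k) (ha : a ≠ 0) :
    ‖(((Algebra.norm ℚ a : ℚ)) : ℚ_[q])‖ =
      ∏ v : PlaceAbove q k,
        ((resCard q (locField q v.emb) : ℕ) : ℝ) ^ (-(ord q (locEmb q v.emb a))) := by
  rw [norm_algebraNorm_eq_prod_place]
  refine Finset.prod_congr rfl (fun v _ => ?_)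
  have := H41.finiteDimensional_locField q k v.emb
  have hne : locEmb q v.emb a ≠ 0 := by
    intro h0
    have := congrArg (fun x : locField q v.emb => (x : PadicAlgCl q)) h0
    simp only [coe_locEmb, ZeroMemClass.coe_zero] at this
    exact ha ((map_eq_zero _).1 this)
  have := nrm_pow_finrank q (locField q v.emb) (locEmb q v.emb a) hne
  rw [← this]
  rfl

/-- A product of one-units is a one-unit. -/
theorem norm_prod_sub_one_lt_one {ι : Type*} (s : Finset ι) (f : ι → PadicAlgCl q)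
    (h : ∀ i ∈ s, ‖f i - 1‖ < 1) : ‖∏ i ∈ s, f i - 1‖ < 1 := by
  classical
  induction s using Finset.induction_on with
  | empty => simp
  | insert i s hi ih =>
    rw [Finset.prod_insert hi]
    have h1 : ‖f i - 1‖ < 1 := h i (Finset.mem_insert_self i s)
    have h2 : ‖∏ j ∈ s, f j - 1‖ < 1 := ih (fun j hj => h j (Finset.mem_insert_of_mem hj))
    have e : f i * ∏ j ∈ s, f j - 1 =
        (f i - 1) * (∏ j ∈ s, f j - 1) + ((f i - 1) + (∏ j ∈ s, f j - 1)) := by ring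
    rw [e]
    refine lt_of_le_of_lt (IsUltrametricDist.norm_add_le_max _ _) (max_lt ?_ ?_)
    · rw [norm_mul]
      calc ‖f i - 1‖ * ‖∏ j ∈ s, f j - 1‖ ≤ ‖f i - 1‖ * 1 :=
            mul_le_mul_of_nonneg_left h2.le (norm_nonneg _)
        _ < 1 := by rw [mul_one]; exact h1
    · exact lt_of_le_of_lt (IsUltrametricDist.norm_add_le_max _ _) (max_lt h1 h2)

/-- **(1U)** If `a` is a one-unit at all embeddings into `PadicAlgCl q`, its norm is a `q`-adic
one-unit. -/
theorem norm_algebraNorm_sub_one_lt_one (a : k)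
    (h : ∀ τ : k →+* PadicAlgCl q, ‖τ a - 1‖ < 1) :
    ‖(((Algebra.norm ℚ a : ℚ)) : ℚ_[q]) - 1‖ < 1 := by
  have h1 := Algebra.norm_eq_prod_embeddings ℚ (PadicAlgCl q) a
  have h2 : algebraMap ℚ (PadicAlgCl q) (Algebra.norm ℚ a) =
      algebraMap ℚ_[q] (PadicAlgCl q) (((Algebra.norm ℚ a : ℚ)) : ℚ_[q]) := by
    rw [IsScalarTower.algebraMap_apply ℚ ℚ_[q] (PadicAlgCl q), eq_ratCast]
  have h3 : algebraMap ℚ_[q] (PadicAlgCl q) ((((Algebra.norm ℚ a : ℚ)) : ℚ_[q]) - 1) =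
      ∏ σ : k →ₐ[ℚ] PadicAlgCl q, σ a - 1 := by
    rw [map_sub, map_one, ← h2, h1]
  rw [← PadicAlgCl.norm_extends, h3]
  exact norm_prod_sub_one_lt_one q _ _ (fun σ _ => h σ.toRingHom)

/-- One-units have norm one. -/
theorem norm_eq_one_of_sub_one_lt {x : PadicAlgCl q} (h : ‖x - 1‖ < 1) : ‖x‖ = 1 := by
  have h1 : ‖x‖ ≤ 1 := by
    have e : x = (x - 1) + 1 := by ring
    rw [e]
    refine le_trans (IsUltrametricDist.norm_add_le_max _ _) (max_le h.le ?_)
    rw [norm_one]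
  refine le_antisymm h1 ?_
  by_contra hlt
  rw [not_le] at hlt
  have e : (1 : PadicAlgCl q) = x + (-(x - 1)) := by ring
  have h2 : ‖(1 : PadicAlgCl q)‖ < 1 := by
    rw [e]
    refine lt_of_le_of_lt (IsUltrametricDist.norm_add_le_max _ _) (max_lt hlt ?_)
    rw [norm_neg]
    exact h
  rw [norm_one] at h2
  exact lt_irrefl _ h2

end Global

/-! ### `ord` of elements of norm one -/

section OrdZero

variable (q : ℕ) [Fact q.Prime]
variable (F : Type) [Field F] [Algebra ℚ_[q] F] [Algebra F (PadicAlgCl q)]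
  [IsScalarTower ℚ_[q] F (PadicAlgCl q)] [FiniteDimensional ℚ_[q] F]

theorem ord_eq_zero_of_nrm_eq_one (x : F) (hx : nrm q x = 1) : ord q x = 0 := by
  obtain ⟨hu0, hu1, -, hord⟩ := leafOrd q F
  have hx0 : x ≠ 0 := by
    rintro rfl
    have h0 : nrm q (0 : F) = 0 := by simp [nrm]
    rw [h0] at hx
    exact zero_ne_one hx
  have h1 := hord x hx0
  rw [hx] at h1
  by_contra hne
  rcases lt_or_gt_of_ne hne with hlt | hgt
  · have : 1 < unifNrm q F ^ ord q x := one_lt_zpow_of_neg₀ hu0 hu1 hlt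
    rw [← h1] at this
    exact lt_irrefl _ this
  · have : unifNrm q F ^ ord q x < 1 := zpow_lt_one₀ hu0 hu1 hgt
    rw [← h1] at this
    exact lt_irrefl _ this

end OrdZero

/-! ### The product over the places above one prime, in `(ℤ/m)ˣ` -/

section Place

variable (q : ℕ) [Fact q.Prime]
variable (k : Type*) [Field k] [NumberField k]

theorem zpow_finset_sum {G : Type*} [CommGroup G] (a : G) {ι : Type*} (s : Finset ι)
    (n : ι → ℤ) : a ^ (∑ i ∈ s, n i) = ∏ i ∈ s, a ^ n i := by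
  classical
  induction s using Finset.induction_on with
  | empty => simp
  | insert i s hi ih => rw [Finset.sum_insert hi, Finset.prod_insert hi, zpow_add, ih]

theorem zpow_finset_sum₀ {a : ℝ} (ha : a ≠ 0) {ι : Type*} (s : Finset ι)
    (n : ι → ℤ) : a ^ (∑ i ∈ s, n i) = ∏ i ∈ s, a ^ n i := by
  classical
  induction s using Finset.induction_on with
  | empty => simp
  | insert i s hi ih => rw [Finset.sum_insert hi, Finset.prod_insert hi, zpow_add₀ ha, ih]

theorem uMod_pow {m n : ℕ} (h : Nat.Coprime n m) (f : ℕ) : uMod m (n ^ f) = uMod m n ^ f := by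
  apply Units.ext
  rw [Units.val_pow_eq_pow_val, uMod_coe h, uMod_coe (Nat.Coprime.pow_left f h)]
  push_cast
  rfl

/-- **(LG) in `(ℤ/m)ˣ`**: for `q` prime to `m`,
`∏_{v ∣ q} (#k_v mod m) ^ ord_v(a) = (q mod m) ^ v_q(N_{k/ℚ} a)`. -/
theorem prod_uMod_place [Fintype (PlaceAbove q k)] (m : ℕ) (hqm : Nat.Coprime q m) (a : k)
    (ha : a ≠ 0) :
    ∏ v : PlaceAbove q k,
        uMod m (resCard q (locField q v.emb)) ^ ord q (locEmb q v.emb a) =
      uMod m q ^ padicValRat q (Algebra.norm ℚ a) := by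
  have hfd : ∀ v : PlaceAbove q k, FiniteDimensional ℚ_[q] (locField q v.emb) := fun v =>
    H41.finiteDimensional_locField q k v.emb
  have hex : ∀ v : PlaceAbove q k, ∃ f : ℕ, resCard q (locField q v.emb) = q ^ f := fun v =>
    haveI := hfd v
    (unifNrm_pow_finrank q (locField q v.emb)).2
  choose f hf using hex
  have hq : q.Prime := Fact.out
  have hq1 : (1 : ℝ) < q := by exact_mod_cast hq.one_lt
  have hq0 : (0 : ℝ) < q := by linarith
  have hN : Algebra.norm ℚ a ≠ 0 := Algebra.norm_ne_zero_iff.2 ha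
  -- exponents
  have hexp : padicValRat q (Algebra.norm ℚ a) =
      ∑ v : PlaceAbove q k, (f v : ℤ) * ord q (locEmb q v.emb a) := by
    have h1 := norm_algebraNorm_eq q k a ha
    have h2 : ‖(((Algebra.norm ℚ a : ℚ)) : ℚ_[q])‖ =
        (q : ℝ) ^ (-padicValRat q (Algebra.norm ℚ a)) := by
      rw [Padic.eq_padicNorm, padicNorm.eq_zpow_of_nonzero hN]
      push_cast
      rfl
    have h3 : ∏ v : PlaceAbove q k,
        ((resCard q (locField q v.emb) : ℕ) : ℝ) ^ (-(ord q (locEmb q v.emb a))) =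
        (q : ℝ) ^ (-∑ v : PlaceAbove q k, (f v : ℤ) * ord q (locEmb q v.emb a)) := by
      rw [← Finset.sum_neg_distrib, zpow_finset_sum₀ hq0.ne']
      refine Finset.prod_congr rfl (fun v _ => ?_)
      rw [hf v]
      push_cast
      rw [← zpow_natCast, ← zpow_mul, mul_neg]
    rw [h2, h3] at h1
    have h4 := zpow_right_injective₀ hq0 hq1.ne' h1
    linarith
  rw [hexp, zpow_finset_sum]
  refine Finset.prod_congr rfl (fun v _ => ?_)
  rw [hf v, uMod_pow hqm, ← zpow_natCast, ← zpow_mul]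

end Place

/-! ### The product formula modulo `m` -/

section PF

attribute [local instance] factOfPrimes

variable (k : Type*) [Field k] [NumberField k]

/-- The local factor of `a` at a finite place, in `(ℤ/m)ˣ`: `(#k_v mod m) ^ ord_v(a)`. -/
def placeFactor (m : ℕ) (a : k) (v : FinPlace k) : (ZMod m)ˣ :=
  uMod m (resCard (v.1 : ℕ) v.field) ^ ord (v.1 : ℕ) (locEmb (v.1 : ℕ) v.emb a)

/-- **(PF) The product formula modulo `m`** (leaf R3f): if `m` is squarefree and `a ∈ kˣ` is a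
one-unit at every embedding of `k` into `PadicAlgCl q` for every prime `q ∣ m`, then the element
`∏_v (#k_v mod m) ^ ord_v(a)` of `(ℤ/m)ˣ` (product over all finite places) has square `1`. -/
theorem prodFormula_sq (m : ℕ) (hm : Squarefree m) (a : kˣ)
    (hunit : ∀ (q : ℕ) [Fact q.Prime], q ∣ m → ∀ τ : k →+* PadicAlgCl q, ‖τ (a : k) - 1‖ < 1) :
    (∏ᶠ v : FinPlace k, placeFactor k m (a : k) v) ^ 2 = 1 := by
  classical
  obtain ⟨M, hM0, hM⟩ := H65.exists_forall_norm_eq_one a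
  set r : ℚ := Algebra.norm ℚ (a : k) with hr
  have hr0 : r ≠ 0 := Algebra.norm_ne_zero_iff.2 a.ne_zero
  set T : Finset ℕ := M.primeFactors ∪ r.num.natAbs.primeFactors ∪ r.den.primeFactors with hT
  have hTp : ∀ ℓ ∈ T, ℓ.Prime := by
    intro ℓ hℓ
    rw [hT, Finset.mem_union, Finset.mem_union] at hℓ
    rcases hℓ with (hℓ | hℓ) | hℓ <;> exact Nat.prime_of_mem_primeFactors hℓ
  have hnum0 : r.num.natAbs ≠ 0 := Int.natAbs_ne_zero.2 (Rat.num_ne_zero.2 hr0)
  have hsupp : ∀ ℓ : ℕ, ℓ.Prime → padicValRat ℓ r ≠ 0 → ℓ ∈ T := by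
    intro ℓ hℓ hne
    by_contra hnot
    apply hne
    rw [hT, Finset.mem_union, Finset.mem_union, not_or, not_or] at hnot
    have h1 : ¬ ℓ ∣ r.num.natAbs := fun hd =>
      hnot.1.2 (Nat.mem_primeFactors.2 ⟨hℓ, hd, hnum0⟩)
    have h2 : ¬ ℓ ∣ r.den := fun hd =>
      hnot.2 (Nat.mem_primeFactors.2 ⟨hℓ, hd, r.den_nz⟩)
    rw [padicValRat_def, padicValNat.eq_zero_of_not_dvd h2]
    have h3 : padicValInt ℓ r.num = 0 := by
      rw [padicValInt, padicValNat.eq_zero_of_not_dvd h1]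
    rw [h3]
    rfl
  -- the set of places above the primes of `T`
  have hfin : ∀ q : Nat.Primes, Fintype (PlaceAbove (q : ℕ) k) := fun q => Fintype.ofFinite _
  let toP : {ℓ // ℓ ∈ T} → Nat.Primes := fun ℓ => ⟨ℓ.1, hTp ℓ.1 ℓ.2⟩
  have htoP : Function.Injective toP := fun x y hxy =>
    Subtype.ext (congrArg (fun z : Nat.Primes => (z : ℕ)) hxy)
  set T' : Finset Nat.Primes := T.attach.image toP with hT'
  have hmemT' : ∀ q : Nat.Primes, q ∈ T' ↔ (q : ℕ) ∈ T := by
    intro q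
    constructor
    · intro h
      obtain ⟨ℓ, -, hℓ⟩ := Finset.mem_image.1 h
      rw [← hℓ]
      exact ℓ.2
    · intro hq
      exact Finset.mem_image.2 ⟨⟨(q : ℕ), hq⟩, Finset.mem_attach _ _, Subtype.ext rfl⟩
  -- the local factor on the sigma type
  let G : (Σ q : Nat.Primes, PlaceAbove (q : ℕ) k) → (ZMod m)ˣ := fun v =>
    uMod m (resCard (v.1 : ℕ) (locField (v.1 : ℕ) v.2.emb)) ^
      ord (v.1 : ℕ) (locEmb (v.1 : ℕ) v.2.emb (a : k))
  have hG1 : ∀ (q : Nat.Primes) (v : PlaceAbove (q : ℕ) k), ‖v.emb (a : k)‖ = 1 →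
      G ⟨q, v⟩ = 1 := by
    intro q v h1
    have := H41.finiteDimensional_locField (q : ℕ) k v.emb
    have h2 : ord (q : ℕ) (locEmb (q : ℕ) v.emb (a : k)) = 0 :=
      ord_eq_zero_of_nrm_eq_one (q : ℕ) (locField (q : ℕ) v.emb) _ h1
    show uMod m (resCard (q : ℕ) (locField (q : ℕ) v.emb)) ^
      ord (q : ℕ) (locEmb (q : ℕ) v.emb (a : k)) = 1
    rw [h2, zpow_zero]
  set s : Finset (Σ q : Nat.Primes, PlaceAbove (q : ℕ) k) :=
    T'.sigma (fun q => @Finset.univ _ (hfin q)) with hs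
  have hsub : Function.mulSupport G ⊆ ↑s := by
    rintro ⟨q, v⟩ hv
    rw [Function.mem_mulSupport] at hv
    rw [Finset.mem_coe, hs, Finset.mem_sigma]
    refine ⟨?_, @Finset.mem_univ _ (hfin q) _⟩
    rw [hmemT']
    by_contra hnot
    apply hv
    have hvM : ¬ ((q : ℕ)) ∣ M := fun hd => by
      apply hnot
      rw [hT]
      exact Finset.mem_union_left _ (Finset.mem_union_left _
        (Nat.mem_primeFactors.2 ⟨q.2, hd, hM0⟩))
    exact hG1 q v (hM (q : ℕ) hvM v.emb)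
  have hmain : (∏ᶠ v : (Σ q : Nat.Primes, PlaceAbove (q : ℕ) k), G v) ^ 2 = 1 := by
    rw [finprod_eq_prod_of_mulSupport_subset _ hsub, hs, Finset.prod_sigma]
    -- the inner products
    have hinner : ∀ q ∈ T', ∏ v ∈ @Finset.univ _ (hfin q), G ⟨q, v⟩ =
        uMod m (q : ℕ) ^ padicValRat (q : ℕ) r := by
      intro q _
      by_cases hqm : Nat.Coprime (q : ℕ) m
      · exact @prod_uMod_place (q : ℕ) _ k _ _ (hfin q) m hqm (a : k) a.ne_zero
      · have hdvd : (q : ℕ) ∣ m := by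
          by_contra hnd
          exact hqm ((Nat.Prime.coprime_iff_not_dvd q.2).2 hnd)
        have hu : uMod m (q : ℕ) = 1 := by rw [uMod, dif_neg hqm]
        rw [hu, one_zpow]
        refine Finset.prod_eq_one (fun v _ => ?_)
        exact hG1 q v (norm_eq_one_of_sub_one_lt (q : ℕ) (hunit (q : ℕ) hdvd _))
    rw [Finset.prod_congr rfl hinner]
    have hre : ∏ q ∈ T', uMod m (q : ℕ) ^ padicValRat (q : ℕ) r =
        ∏ ℓ ∈ T, uMod m ℓ ^ padicValRat ℓ r := by
      exact (Finset.prod_image (s := T.attach) (g := toP)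
        (f := fun q : Nat.Primes => uMod m (q : ℕ) ^ padicValRat (q : ℕ) r)
        (fun x _ y _ hxy => htoP hxy)).trans
        (Finset.prod_attach T (fun ℓ => uMod m ℓ ^ padicValRat ℓ r))
    rw [hre]
    refine prod_uMod_zpow_sq_of_oneUnit m hm r hr0 (fun q _ hq => ?_) T hTp hsupp
    exact norm_algebraNorm_sub_one_lt_one q k (a : k) (hunit q hq)
  exact hmain

end PF

end Fermat.Agent.S55.H5
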