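/-
Program C (S55), package C8, leaf R3e (A-FROB) of helper29's REC chain (#2282).

* `eq_of_pow_eq_one_of_norm_sub_lt_one` : two `m`-th roots of unity of `PadicAlgCl q` at
  distance `< 1` are equal when `q ∤ m` (rigidity of prime-to-`q` roots of unity);
* `frob_rootOfUnity` : a Frobenius `φ` of `L/F` (in the sense of `H66.IsFrob`) sends an `m`-th
  root of unity `ζ ∈ L`, `q ∤ m`, to `ζ ^ #k_F`.

H66 vocabulary only (embedded local fields in `PadicAlgCl q`).  (helper5)
-/
import Mathlib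
import Fermat.Agent.S55.H66.InvSpec

set_option autoImplicit false

noncomputable section

namespace Fermat.Agent.S55.H5

open Fermat.Agent.S55.H66

variable (q : ℕ) [Fact q.Prime]

/-- A natural number prime to `q` has norm `1` in `PadicAlgCl q`. -/
theorem norm_natCast_eq_one {m : ℕ} (hm : ¬ q ∣ m) : ‖(m : PadicAlgCl q)‖ = 1 := by
  rw [← map_natCast (algebraMap ℚ_[q] (PadicAlgCl q)), PadicAlgCl.norm_extends]
  rw [Padic.norm_natCast_eq_one_iff]
  exact (Nat.Prime.coprime_iff_not_dvd (Fact.out : q.Prime)).2 hm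

/-- A natural number divisible by `q` has norm `< 1` in `PadicAlgCl q`. -/
theorem norm_natCast_lt_one {m : ℕ} (hm : q ∣ m) : ‖(m : PadicAlgCl q)‖ < 1 := by
  rw [← map_natCast (algebraMap ℚ_[q] (PadicAlgCl q)), PadicAlgCl.norm_extends]
  exact (Padic.norm_natCast_lt_one_iff).2 hm

variable {q}

/-- Roots of unity have norm `1`. -/
theorem norm_eq_one_of_pow_eq_one {x : PadicAlgCl q} {m : ℕ} (hm : m ≠ 0) (h : x ^ m = 1) :
    ‖x‖ = 1 := by
  have h1 := congrArg norm h
  rw [norm_pow, norm_one] at h1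
  exact (pow_eq_one_iff_of_nonneg (norm_nonneg x) hm).1 h1

/-- A root of unity of order prime to `q` which is a one-unit is `1`. -/
theorem eq_one_of_pow_eq_one_of_norm_sub_lt_one {x : PadicAlgCl q} {m : ℕ} (hm : ¬ q ∣ m)
    (h : x ^ m = 1) (hx : ‖x - 1‖ < 1) : x = 1 := by
  by_contra hne
  have hm0 : m ≠ 0 := fun h0 => hm (h0 ▸ dvd_zero q)
  have hgeom : (∑ i ∈ Finset.range m, x ^ i) * (x - 1) = x ^ m - 1 := geom_sum_mul x m
  have hsum : ∑ i ∈ Finset.range m, x ^ i = 0 := by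
    have h0 : (∑ i ∈ Finset.range m, x ^ i) * (x - 1) = 0 := by rw [hgeom, h, sub_self]
    exact (mul_eq_zero.1 h0).resolve_right (sub_ne_zero.2 hne)
  have hxn : ‖x‖ = 1 := norm_eq_one_of_pow_eq_one hm0 h
  have hpow : ∀ i : ℕ, ‖x ^ i - 1‖ < 1 := by
    intro i
    induction i with
    | zero => simp
    | succ i ih =>
      have e : x ^ (i + 1) - 1 = x ^ i * (x - 1) + (x ^ i - 1) := by ring
      rw [e]
      refine lt_of_le_of_lt (IsUltrametricDist.norm_add_le_max _ _) (max_lt ?_ ih)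
      rw [norm_mul, norm_pow, hxn, one_pow, one_mul]
      exact hx
  have hm1 : ‖(m : PadicAlgCl q)‖ < 1 := by
    have e : (m : PadicAlgCl q) = - ∑ i ∈ Finset.range m, (x ^ i - 1) := by
      rw [Finset.sum_sub_distrib, hsum]
      simp
    rw [e, norm_neg]
    obtain ⟨i, -, hi⟩ := IsUltrametricDist.exists_norm_finsetSum_le (Finset.range m)
      (fun i => x ^ i - 1)
    exact lt_of_le_of_lt hi (hpow i)
  exact absurd (norm_natCast_eq_one q hm) (ne_of_lt hm1)

/-- **Rigidity of roots of unity of order prime to `q`**: two `m`-th roots of unity of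
`PadicAlgCl q` at distance `< 1` are equal. -/
theorem eq_of_pow_eq_one_of_norm_sub_lt_one {x y : PadicAlgCl q} {m : ℕ} (hm : ¬ q ∣ m)
    (hx : x ^ m = 1) (hy : y ^ m = 1) (hxy : ‖x - y‖ < 1) : x = y := by
  have hm0 : m ≠ 0 := fun h0 => hm (h0 ▸ dvd_zero q)
  have hyn : ‖y‖ = 1 := norm_eq_one_of_pow_eq_one hm0 hy
  have hy0 : y ≠ 0 := by
    intro h0
    rw [h0, norm_zero] at hyn
    exact zero_ne_one hyn
  have h1 : (x / y) ^ m = 1 := by rw [div_pow, hx, hy, div_one]
  have h2 : ‖x / y - 1‖ < 1 := by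
    have e : x / y - 1 = (x - y) / y := by field_simp
    rw [e, norm_div, hyn, div_one]
    exact hxy
  exact (div_eq_one_iff_eq hy0).1 (eq_one_of_pow_eq_one_of_norm_sub_lt_one hm h1 h2)

/-- **A-FROB** (leaf R3e): a Frobenius of `L/F` raises the roots of unity of order prime to
`q` to the power `#k_F`. -/
theorem frob_rootOfUnity {F : Type} [Field F] [Algebra F (PadicAlgCl q)]
    (L : IntermediateField F (PadicAlgCl q)) (φ : L ≃ₐ[F] L) (hφ : IsFrob q L φ)
    {m : ℕ} (hm : ¬ q ∣ m) (ζ : L) (hζ : ζ ^ m = 1) : φ ζ = ζ ^ resCard q F := by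
  have hm0 : m ≠ 0 := fun h0 => hm (h0 ▸ dvd_zero q)
  have hζ' : ((ζ : L) : PadicAlgCl q) ^ m = 1 := by
    have := congrArg (fun x : L => (x : PadicAlgCl q)) hζ
    simpa using this
  have hζn : nrm q ζ = 1 := norm_eq_one_of_pow_eq_one hm0 hζ'
  have h := hφ ζ (le_of_eq hζn)
  apply Subtype.ext
  refine eq_of_pow_eq_one_of_norm_sub_lt_one hm ?_ ?_ ?_
  · have h1 : (φ ζ) ^ m = 1 := by rw [← map_pow, hζ, map_one]
    have := congrArg (fun x : L => (x : PadicAlgCl q)) h1
    simpa using this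
  · have h1 : (ζ ^ resCard q F) ^ m = 1 := by rw [← pow_mul, mul_comm, pow_mul, hζ, one_pow]
    have := congrArg (fun x : L => (x : PadicAlgCl q)) h1
    simpa using this
  · exact h

end Fermat.Agent.S55.H5
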