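/-
Program C (S55), package C8, leaf R3 (CYCLO-REC), arithmetic half — helper5.

CYCLO-FROB.  `k ⊆ E ⊆ F = k(ζ_m)` number fields, `q ∤ m`, `τ' : E →+* PadicAlgCl q`.  Then
`E_w / k_v` (`H88.locExt q k τ'` over `H88.locBase q k τ'`) is unramified, and there is
`g ∈ Gal(F/k)` raising the `m`-th roots of unity to the power `N v = #k(v)` whose restriction to
`E` is the image in `Gal(E/k)` of the Frobenius of `E_w / k_v`.

Route (no comparison of the base fields of `E` and `F`): all `m`-th roots of unity of
`PadicAlgCl q` lie in the unramified extension `L_big = unramExt q k_v n`, `n = φ(m)`; the image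
of `F` under an extension `τ''` of `τ'` lies in `L_big`, hence `E_w ≤ L_big`; the Frobenius of
`E_w` is the restriction of the Frobenius of `L_big`.
-/
import Fermat.Agent.S55.H16.CycLoc
import Fermat.Agent.S55.H5.AFrob

set_option autoImplicit false

open scoped IntermediateField

noncomputable section

namespace Fermat.Agent.S55.H5

open Fermat.Agent.S55.H66 Fermat.Agent.S55.H88

section CycloFrob

variable (q : ℕ) [Fact q.Prime]
variable (k E F : Type) [Field k] [NumberField k] [Field E] [NumberField E] [Field F]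
  [NumberField F] [Algebra k E] [Algebra k F] [Algebra E F] [IsScalarTower k E F] [IsGalois k E]
  (m : ℕ) [IsCyclotomicExtension {m} k F]

/-- **CYCLO-FROB.**  For `E ⊆ F = k(ζ_m)` and `q ∤ m`: the local extension of `E/k` at any
embedding `τ'` above `q` is unramified, and its Frobenius is the restriction of an element of
`Gal(F/k)` which raises the `m`-th roots of unity to the power `#k(v)`. -/
theorem cycloFrob (hq : ¬ q ∣ m) (τ' : E →+* PadicAlgCl q) :
    IsUnram q (locBase q k τ') (locExt q k τ') ∧
    ∃ g : F ≃ₐ[k] F, (∀ ξ : F, ξ ^ m = 1 → g ξ = ξ ^ resCard q (locBase q k τ')) ∧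
      ∀ Φ : locExt q k τ' ≃ₐ[locBase q k τ'] locExt q k τ', IsFrob q (locExt q k τ') Φ →
        locGalToGlobal q k τ' Φ = AlgEquiv.restrictNormalHom E g := by
  classical
  have : IsGalois k F := IsCyclotomicExtension.isGalois {m} k F
  have hfd0 : FiniteDimensional ℚ_[q] (locBase q k τ') :=
    H16.finiteDimensional_locBase q k E τ'
  have hfdE : FiniteDimensional (locBase q k τ') (locExt q k τ') :=
    H16.finiteDimensional_locExt' q k E τ'
  have hgalE : IsGalois (locBase q k τ') (locExt q k τ') := H16.isGalois_locExt' q k E τ'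
  have hm0 : m ≠ 0 := fun h => hq (h ▸ dvd_zero q)
  obtain ⟨f, hf0, hf⟩ := H28.exists_resCard_eq q (locBase q k τ')
  have hcop : Nat.Coprime (resCard q (locBase q k τ')) m := by
    rw [hf]
    exact Nat.Coprime.pow_left f ((Nat.Prime.coprime_iff_not_dvd Fact.out).2 hq)
  have hn0 : 0 < Nat.totient m := Nat.totient_pos.2 (Nat.pos_of_ne_zero hm0)
  have hN1 : 1 ≤ resCard q (locBase q k τ') ^ Nat.totient m :=
    Nat.one_le_pow _ _ (by rw [hf]; exact pow_pos (Fact.out : q.Prime).pos f)
  have hdvd : m ∣ resCard q (locBase q k τ') ^ Nat.totient m - 1 :=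
    (Nat.modEq_iff_dvd' hN1).1 (Nat.ModEq.pow_totient hcop).symm
  obtain ⟨hfdB, -, hgalB, -, hunrB⟩ := c3_unram q (locBase q k τ') (Nat.totient m) hn0
  -- an extension of `τ'` to `F`
  have : Algebra.IsAlgebraic E F := Algebra.IsAlgebraic.tower_top (K := k) E
  obtain ⟨τ'', hτ''⟩ := exists_extend q (k := E) (K := F) τ'
  have hτE : ∀ x : E, τ'' (algebraMap E F x) = τ' x := fun x => RingHom.congr_fun hτ'' x
  have hτk : ∀ c : k, τ'' (algebraMap k F c) = τ' (algebraMap k E c) := fun c => by
    rw [IsScalarTower.algebraMap_apply k E F, hτE]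
  -- roots of unity lie in the big unramified extension
  have hroot : ∀ z : PadicAlgCl q, z ^ m = 1 →
      z ∈ unramExt q (locBase q k τ') (Nat.totient m) := by
    intro z hz
    refine IntermediateField.subset_adjoin _ _ ?_
    obtain ⟨c, hc⟩ := hdvd
    show z ^ (resCard q (locBase q k τ') ^ Nat.totient m - 1) = 1
    rw [hc, pow_mul, hz, one_pow]
  -- the image of `F` lies in the big unramified extension
  have hP : ∀ y : F, τ'' y ∈ unramExt q (locBase q k τ') (Nat.totient m) := by
    intro y
    have hy := ‹IsCyclotomicExtension {m} k F›.adjoin_roots y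
    refine Algebra.adjoin_induction (p := fun y _ =>
      τ'' y ∈ unramExt q (locBase q k τ') (Nat.totient m)) ?_ ?_ ?_ ?_ hy
    · rintro b ⟨n, hn, -, hb⟩
      rw [Set.mem_singleton_iff] at hn
      subst hn
      exact hroot _ (by rw [← map_pow, hb, map_one])
    · intro c
      rw [hτk]
      exact IntermediateField.algebraMap_mem _
        (locEmb q (τ'.comp (algebraMap k E)) c)
    · intro x y _ _ hx hy
      rw [map_add]
      exact add_mem hx hy
    · intro x y _ _ hx hy
      rw [map_mul]
      exact mul_mem hx hy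
  -- `E_w ≤ L_big`
  have hle : locExt q k τ' ≤ unramExt q (locBase q k τ') (Nat.totient m) := by
    intro z hz
    have h1 : locField q τ' ≤
        (unramExt q (locBase q k τ') (Nat.totient m)).restrictScalars ℚ_[q] := by
      refine IntermediateField.adjoin_le_iff.2 ?_
      rintro _ ⟨x, rfl⟩
      show τ' x ∈ unramExt q (locBase q k τ') (Nat.totient m)
      rw [← hτE]
      exact hP _
    exact h1 hz
  -- unramified
  have hunrE : IsUnram q (locBase q k τ') (locExt q k τ') := by
    intro x
    obtain ⟨y, hy⟩ := hunrB ⟨x.1, hle x.2⟩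
    exact ⟨y, hy⟩
  refine ⟨hunrE, ?_⟩
  -- the two Frobenius elements
  obtain ⟨Φb, hΦb, -, -⟩ := c3_frob q (locBase q k τ')
    (unramExt q (locBase q k τ') (Nat.totient m)) hunrB
  obtain ⟨ΦE, -, hΦEu, -⟩ := c3_frob q (locBase q k τ') (locExt q k τ') hunrE
  have hres : IsFrob q (locExt q k τ') (resHom hle Φb) := by
    intro x hx
    have h1 := hΦb (IntermediateField.inclusion hle x) hx
    have h2 : nrm q ((resHom hle Φb) x - x ^ resCard q (locBase q k τ')) =
        nrm q (Φb (IntermediateField.inclusion hle x) -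
          (IntermediateField.inclusion hle x) ^ resCard q (locBase q k τ')) := by
      show ‖(((resHom hle Φb) x - x ^ resCard q (locBase q k τ') : locExt q k τ') :
          PadicAlgCl q)‖ = ‖((Φb (IntermediateField.inclusion hle x) -
          (IntermediateField.inclusion hle x) ^ resCard q (locBase q k τ') :
            unramExt q (locBase q k τ') (Nat.totient m)) : PadicAlgCl q)‖
      congr 1
      show ((resHom hle Φb x : locExt q k τ') : PadicAlgCl q) - (x : PadicAlgCl q) ^ _ = _
      rw [resHom_apply]
      rfl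
    rw [h2]
    exact h1
  have hΦ : ∀ Φ : locExt q k τ' ≃ₐ[locBase q k τ'] locExt q k τ', IsFrob q (locExt q k τ') Φ →
      Φ = resHom hle Φb := fun Φ h => (hΦEu Φ h).trans (hΦEu _ hres).symm
  -- the global element
  let ρ : F →+* PadicAlgCl q :=
    ((unramExt q (locBase q k τ') (Nat.totient m)).val : _ →+* PadicAlgCl q).comp
      ((Φb : unramExt q (locBase q k τ') (Nat.totient m) →+*
          unramExt q (locBase q k τ') (Nat.totient m)).comp
        (τ''.codRestrict (unramExt q (locBase q k τ') (Nat.totient m)) hP))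
  have hρ : ∀ y : F, ρ y = ((Φb ⟨τ'' y, hP y⟩ :
      unramExt q (locBase q k τ') (Nat.totient m)) : PadicAlgCl q) := fun y => rfl
  have hcomp : τ''.comp (algebraMap k F) = ρ.comp (algebraMap k F) := by
    refine RingHom.ext fun c => ?_
    show τ'' (algebraMap k F c) = ρ (algebraMap k F c)
    rw [hρ]
    have h1 : (⟨τ'' (algebraMap k F c), hP _⟩ :
        unramExt q (locBase q k τ') (Nat.totient m)) =
        algebraMap (locBase q k τ') (unramExt q (locBase q k τ') (Nat.totient m))
          (locEmb q (τ'.comp (algebraMap k E)) c) := Subtype.ext (hτk c)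
    rw [h1, AlgEquiv.commutes]
    exact hτk c
  obtain ⟨g, hg⟩ := exists_algEquiv_comp_eq q τ'' ρ hcomp
  have hg' : ∀ y : F, τ'' (g y) = ρ y := fun y => (RingHom.congr_fun hg y).symm
  refine ⟨g, ?_, ?_⟩
  · intro ξ hξ
    apply τ''.injective
    rw [hg', hρ, map_pow]
    have h1 : (⟨τ'' ξ, hP ξ⟩ : unramExt q (locBase q k τ') (Nat.totient m)) ^ m = 1 :=
      Subtype.ext (by
        show (τ'' ξ) ^ m = 1
        rw [← map_pow, hξ, map_one])
    rw [frob_rootOfUnity (unramExt q (locBase q k τ') (Nat.totient m)) Φb hΦb hq _ h1]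
    rfl
  · intro Φ hΦF
    refine AlgEquiv.ext fun x => τ'.injective ?_
    have h1 : τ' (locGalToGlobal q k τ' Φ x) =
        ((Φ (locExtEmb q k τ' x) : locExt q k τ') : PadicAlgCl q) := by
      rw [locGalToGlobal_spec]
      rfl
    have h2 : τ' (AlgEquiv.restrictNormalHom E g x) = ρ (algebraMap E F x) := by
      rw [← hτE, ← hg']
      congr 1
      exact AlgEquiv.restrictNormal_commutes g E x
    rw [h1, h2, hρ, hΦ Φ hΦF, resHom_apply]
    congr 2
    exact Subtype.ext (hτE x).symm

end CycloFrob

end Fermat.Agent.S55.H5
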