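/-
Program C (S55), package C8, leaf R3 (CYCLO-REC), arithmetic half — helper5.

`cycloRec_arith` : `E/k` cyclic of odd degree inside `F = k(ζ_m)`, `m` squarefree, `σ` a generator
of `Gal(E/k)`, `a ∈ kˣ` a one-unit at every embedding above the primes dividing `m`, and the
local invariants of `cycClass σ a` vanish at the places dividing `m`.  Then the sum of all local
invariants of `cycClass σ a` is `0`.

Off `m` : `linv v = ord_v(a) · j_v / n` with `Frob_v|E = σ ^ j_v` (unramified formula), `Frob_v`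
is the restriction of `g_v ∈ Gal(F/k)` acting on `μ_m` by `N v` (`cycloFrob`); the element
`h = ∏ g_v ^ ord_v(a)` corresponds to `∏ (N v) ^ ord_v(a) = ± 1 ∈ (ℤ/m)ˣ` (`prodFormula_sq`), so
`h² = 1`, its restriction to `E` is trivial (odd order), i.e. `n ∣ Σ ord_v(a) j_v`.
-/
import Fermat.Agent.S55.H5.CycloFrob
import Fermat.Agent.S55.H5.ProdFormula
import Fermat.Agent.S55.H18.CycLocal

set_option autoImplicit false

open scoped IntermediateField
open CategoryTheory groupCohomology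

noncomputable section

namespace Fermat.Agent.S55.H5

open Fermat.Agent.S55.H66 Fermat.Agent.S55.H88

section Formula

variable (q : ℕ) [Fact q.Prime]
variable (k E : Type) [Field k] [NumberField k] [Field E] [NumberField E] [Algebra k E]
  [IsGalois k E]

/-- The unramified formula for the local invariant of a cyclic class. -/
theorem linvAt_cycClass_unram (τ' : E →+* PadicAlgCl q) (σ : E ≃ₐ[k] E)
    (hσ : ∀ g : E ≃ₐ[k] E, g ∈ Subgroup.zpowers σ) (a : kˣ)
    (hunr : IsUnram q (locBase q k τ') (locExt q k τ'))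
    (Φ : locExt q k τ' ≃ₐ[locBase q k τ'] locExt q k τ') (hΦ : IsFrob q (locExt q k τ') Φ)
    (j : ℕ) (hj : locGalToGlobal q k τ' Φ = σ ^ j) :
    linvAt q k τ' (cycClass (Rep.ofAlgebraAutOnUnits k E) σ (H29.unitOfBase k E a)) =
      ((((ord q (locEmb q (τ'.comp (algebraMap k E)) (a : k)) * (j : ℤ) : ℤ) : ℚ) /
        (Module.finrank k E : ℚ) : ℚ) : QZ) := by
  have hord : orderOf σ = Module.finrank k E :=
    (orderOf_eq_card_of_forall_mem_zpowers hσ).trans (IsGalois.card_aut_eq_finrank k E)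
  have hpos : 0 < orderOf σ := by
    rw [hord]
    exact Module.finrank_pos
  have h1 := H18.linvAt_cycClass_of_unram k τ' σ hσ a hunr Φ hΦ
  rw [hj, H18.chi_pow σ hpos j, hord] at h1
  rw [h1, ← AddCircle.coe_zsmul]
  congr 1
  show ord q (locEmb q (τ'.comp (algebraMap k E)) (a : k)) • ((j : ℚ) / (Module.finrank k E : ℚ))
    = _
  rw [zsmul_eq_mul]
  push_cast
  ring

end Formula

section Arith

attribute [local instance] factOfPrimes

variable (k E F : Type) [Field k] [NumberField k] [Field E] [NumberField E] [Field F]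
  [NumberField F] [Algebra k E] [Algebra k F] [Algebra E F] [IsScalarTower k E F] [IsGalois k E]
  (m : ℕ) [IsCyclotomicExtension {m} k F]

/-- Per-place data off `m`. -/
theorem exists_frob_data (hm0 : m ≠ 0) [NeZero m] (ζ : F) (hζ : IsPrimitiveRoot ζ m)
    (σ : E ≃ₐ[k] E) (hσ : ∀ g : E ≃ₐ[k] E, g ∈ Subgroup.zpowers σ) (a : kˣ)
    (v : FinPlace k) (hv : ¬ ((v.1 : ℕ) ∣ m)) :
    ∃ (g : F ≃ₐ[k] F) (j : ℕ),
      hζ.autToPow k g = uMod m (resCard (v.1 : ℕ) v.field) ∧
      AlgEquiv.restrictNormalHom E g = σ ^ j ∧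
      (layerOf k E).linv v (cycClass (Rep.ofAlgebraAutOnUnits k E) σ (H29.unitOfBase k E a)) =
        ((((ord (v.1 : ℕ) (locEmb (v.1 : ℕ) v.emb (a : k)) * (j : ℤ) : ℤ) : ℚ) /
          (Module.finrank k E : ℚ) : ℚ) : QZ) := by
  classical
  obtain ⟨hunr, g, hg, hres⟩ := cycloFrob (v.1 : ℕ) k E F m hv (v.ext E)
  have hfd0 := H16.finiteDimensional_locBase (v.1 : ℕ) k E (v.ext E)
  have hfd1 := H16.finiteDimensional_locExt' (v.1 : ℕ) k E (v.ext E)
  have hgal := H16.isGalois_locExt' (v.1 : ℕ) k E (v.ext E)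
  obtain ⟨Φ, hΦ, -, -⟩ := c3_frob (v.1 : ℕ) (locBase (v.1 : ℕ) k (v.ext E))
    (locExt (v.1 : ℕ) k (v.ext E)) hunr
  obtain ⟨j, hj⟩ : ∃ j : ℕ, σ ^ j = locGalToGlobal (v.1 : ℕ) k (v.ext E) Φ := by
    have h1 := hσ (locGalToGlobal (v.1 : ℕ) k (v.ext E) Φ)
    rw [← mem_powers_iff_mem_zpowers] at h1
    exact h1
  have hext : (v.ext E).comp (algebraMap k E) = v.emb := FinPlace.ext_comp E v
  have hN : resCard (v.1 : ℕ) (locBase (v.1 : ℕ) k (v.ext E)) = resCard (v.1 : ℕ) v.field :=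
    congrArg (fun τ : k →+* PadicAlgCl (v.1 : ℕ) => resCard (v.1 : ℕ) (locField (v.1 : ℕ) τ)) hext
  refine ⟨g, j, ?_, ?_, ?_⟩
  · -- the action on `ζ`
    have h1 : g ζ = ζ ^ resCard (v.1 : ℕ) v.field := by
      rw [← hN]
      exact hg ζ hζ.pow_eq_one
    have h2 : ζ ^ (hζ.autToPow k g : ZMod m).val = ζ ^ resCard (v.1 : ℕ) v.field := by
      rw [IsPrimitiveRoot.autToPow_spec, h1]
    have h3 : (hζ.autToPow k g : ZMod m).val ≡ resCard (v.1 : ℕ) v.field [MOD m] := by
      have hfo : IsOfFinOrder ζ :=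
        isOfFinOrder_iff_pow_eq_one.2 ⟨m, Nat.pos_of_ne_zero hm0, hζ.pow_eq_one⟩
      have := hfo.pow_eq_pow_iff_modEq.1 h2
      rwa [← hζ.eq_orderOf] at this
    have hfdv : FiniteDimensional ℚ_[(v.1 : ℕ)] (locBase (v.1 : ℕ) k (v.ext E)) := hfd0
    obtain ⟨f, -, hf⟩ := H28.exists_resCard_eq (v.1 : ℕ) (locBase (v.1 : ℕ) k (v.ext E))
    have hcop : Nat.Coprime (resCard (v.1 : ℕ) v.field) m := by
      rw [← hN, hf]
      exact Nat.Coprime.pow_left f ((Nat.Prime.coprime_iff_not_dvd v.1.2).2 hv)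
    apply Units.ext
    rw [uMod_coe hcop, ← (ZMod.natCast_eq_natCast_iff _ _ _).2 h3, ZMod.natCast_zmod_val]
  · rw [← hres Φ hΦ, hj]
  · have h1 := linvAt_cycClass_unram (v.1 : ℕ) k E (v.ext E) σ hσ a hunr Φ hΦ j hj.symm
    have h2 : ord (v.1 : ℕ) (locEmb (v.1 : ℕ) ((v.ext E).comp (algebraMap k E)) (a : k)) =
        ord (v.1 : ℕ) (locEmb (v.1 : ℕ) v.emb (a : k)) :=
      congrArg (fun τ : k →+* PadicAlgCl (v.1 : ℕ) =>
        ord (v.1 : ℕ) (locEmb (v.1 : ℕ) τ (a : k))) hext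
    rw [← h2]
    exact h1

theorem coe_sum_QZ {ι : Type*} (S : Finset ι) (x : ι → ℚ) :
    ∑ v ∈ S, ((x v : ℚ) : QZ) = ((∑ v ∈ S, x v : ℚ) : QZ) :=
  (map_sum (QuotientAddGroup.mk' (AddSubgroup.zmultiples (1 : ℚ))) x S).symm

include F in
/-- **CYCLO-REC, arithmetic half.** -/
theorem cycloRec_arith (hm : Squarefree m) (hodd : Odd (Module.finrank k E))
    (σ : E ≃ₐ[k] E) (hσ : ∀ g : E ≃ₐ[k] E, g ∈ Subgroup.zpowers σ) (a : kˣ)
    (hunit : ∀ (q : ℕ) [Fact q.Prime], q ∣ m → ∀ τ : k →+* PadicAlgCl q, ‖τ (a : k) - 1‖ < 1)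
    (hzero : ∀ v : FinPlace k, (v.1 : ℕ) ∣ m →
      (layerOf k E).linv v
        (cycClass (Rep.ofAlgebraAutOnUnits k E) σ (H29.unitOfBase k E a)) = 0) :
    (layerOf k E).RecAt (cycClass (Rep.ofAlgebraAutOnUnits k E) σ (H29.unitOfBase k E a)) := by
  classical
  have hm0 : m ≠ 0 := hm.ne_zero
  have : NeZero m := ⟨hm0⟩
  have hgalF : IsGalois k F := IsCyclotomicExtension.isGalois {m} k F
  obtain ⟨ζ, hζ⟩ := IsCyclotomicExtension.exists_isPrimitiveRoot k F (Set.mem_singleton m) hm0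
  choose! g j hω hres hlinv using fun (v : FinPlace k) (hv : ¬ ((v.1 : ℕ) ∣ m)) =>
    exists_frob_data k E F m hm0 ζ hζ σ hσ a v hv
  -- the exponents
  let e : FinPlace k → ℤ := fun v => ord (v.1 : ℕ) (locEmb (v.1 : ℕ) v.emb (a : k))
  have he0 : ∀ v : FinPlace k, ‖v.emb (a : k)‖ = 1 → e v = 0 := fun v h1 => by
    have := H41.finiteDimensional_locField (v.1 : ℕ) k v.emb
    exact ord_eq_zero_of_nrm_eq_one (v.1 : ℕ) (locField (v.1 : ℕ) v.emb) _ h1
  have hem : ∀ v : FinPlace k, (v.1 : ℕ) ∣ m → e v = 0 := fun v hv =>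
    he0 v (norm_eq_one_of_sub_one_lt (v.1 : ℕ) (hunit (v.1 : ℕ) hv v.emb))
  -- finite support
  have hfin : {v : FinPlace k | finLoc k v a ∉ finU k v}.Finite :=
    finiteNonunitStatement_holds k a
  have hS : ∀ v : FinPlace k, v ∉ hfin.toFinset → e v = 0 := by
    intro v hv
    refine he0 v ?_
    by_contra h
    exact hv (hfin.mem_toFinset.2 h)
  -- the data extended by the trivial values at the places dividing `m`
  let J : FinPlace k → ℕ := fun v => if (v.1 : ℕ) ∣ m then 0 else j v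
  let Gv : FinPlace k → (F ≃ₐ[k] F) := fun v => if (v.1 : ℕ) ∣ m then 1 else g v
  have hGres : ∀ v, AlgEquiv.restrictNormalHom E (Gv v) = σ ^ J v := by
    intro v
    by_cases hv : (v.1 : ℕ) ∣ m
    · simp only [Gv, J, if_pos hv, map_one, pow_zero]
    · simp only [Gv, J, if_neg hv]
      exact hres v hv
  have hGω : ∀ v, hζ.autToPow k (Gv v) ^ e v = placeFactor k m (a : k) v := by
    intro v
    by_cases hv : (v.1 : ℕ) ∣ m
    · simp only [Gv, if_pos hv, map_one, one_zpow]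
      show 1 = uMod m (resCard (v.1 : ℕ) v.field) ^ e v
      rw [hem v hv, zpow_zero]
    · simp only [Gv, if_neg hv]
      rw [hω v hv]
      rfl
  have hlin : ∀ v, (layerOf k E).linv v
      (cycClass (Rep.ofAlgebraAutOnUnits k E) σ (H29.unitOfBase k E a)) =
      ((((e v * (J v : ℤ) : ℤ) : ℚ) / (Module.finrank k E : ℚ) : ℚ) : QZ) := by
    intro v
    by_cases hv : (v.1 : ℕ) ∣ m
    · rw [hzero v hv]
      simp only [J, if_pos hv]
      simp
    · simp only [J, if_neg hv]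
      exact hlinv v hv
  -- the total element
  have hex : ∀ T : Finset (FinPlace k), ∃ h : F ≃ₐ[k] F,
      hζ.autToPow k h = ∏ v ∈ T, placeFactor k m (a : k) v ∧
      AlgEquiv.restrictNormalHom E h = σ ^ (∑ v ∈ T, e v * (J v : ℤ)) := by
    intro T
    induction T using Finset.induction_on with
    | empty => exact ⟨1, by simp, by simp⟩
    | insert v T hv ih =>
      obtain ⟨h, h1, h2⟩ := ih
      refine ⟨Gv v ^ e v * h, ?_, ?_⟩
      · rw [map_mul, map_zpow, h1, Finset.prod_insert hv, hGω]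
      · rw [map_mul, map_zpow, h2, Finset.sum_insert hv, hGres, zpow_add, mul_comm (e v),
          zpow_mul, zpow_natCast]
  obtain ⟨h, h1, h2⟩ := hex hfin.toFinset
  -- the product formula
  have hPF := prodFormula_sq k m hm a hunit
  have hsupp : Function.mulSupport (fun v => placeFactor k m (a : k) v) ⊆ ↑hfin.toFinset := by
    intro v hv
    by_contra hvS
    apply hv
    show uMod m (resCard (v.1 : ℕ) v.field) ^ e v = 1
    rw [hS v hvS, zpow_zero]
  rw [finprod_eq_prod_of_mulSupport_subset _ hsupp] at hPF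
  have hh : h ^ 2 = 1 := hζ.autToPow_injective k (by rw [map_pow, h1, hPF, map_one])
  have hσM : σ ^ ((∑ v ∈ hfin.toFinset, e v * (J v : ℤ)) * 2) = 1 := by
    have h3 := congrArg (AlgEquiv.restrictNormalHom E) hh
    rw [map_pow, h2, map_one] at h3
    rw [zpow_mul]
    exact_mod_cast h3
  have hord : orderOf σ = Module.finrank k E :=
    (orderOf_eq_card_of_forall_mem_zpowers hσ).trans (IsGalois.card_aut_eq_finrank k E)
  have hdvd : (Module.finrank k E : ℤ) ∣ ∑ v ∈ hfin.toFinset, e v * (J v : ℤ) := by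
    have h3 : (orderOf σ : ℤ) ∣ (∑ v ∈ hfin.toFinset, e v * (J v : ℤ)) * 2 :=
      orderOf_dvd_iff_zpow_eq_one.2 hσM
    rw [hord] at h3
    have hcop : IsCoprime (Module.finrank k E : ℤ) 2 := by
      rw [Int.isCoprime_iff_gcd_eq_one]
      exact_mod_cast (Nat.coprime_two_right.2 hodd)
    exact hcop.dvd_of_dvd_mul_right h3
  -- conclusion
  have hn0 : (Module.finrank k E : ℚ) ≠ 0 := by
    have : 0 < Module.finrank k E := Module.finrank_pos
    exact_mod_cast this.ne'
  show ∑ᶠ v : FinPlace k, (layerOf k E).linv v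
    (cycClass (Rep.ofAlgebraAutOnUnits k E) σ (H29.unitOfBase k E a)) = 0
  have hsupp2 : Function.support (fun v : FinPlace k => (layerOf k E).linv v
      (cycClass (Rep.ofAlgebraAutOnUnits k E) σ (H29.unitOfBase k E a))) ⊆ ↑hfin.toFinset := by
    intro v hv
    by_contra hvS
    apply hv
    show (layerOf k E).linv v _ = 0
    rw [hlin v, hS v hvS]
    simp
  have hsum : ∑ v ∈ hfin.toFinset, (layerOf k E).linv v
      (cycClass (Rep.ofAlgebraAutOnUnits k E) σ (H29.unitOfBase k E a)) =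
      ∑ v ∈ hfin.toFinset,
        ((((e v * (J v : ℤ) : ℤ) : ℚ) / (Module.finrank k E : ℚ) : ℚ) : QZ) :=
    Finset.sum_congr rfl (fun v _ => hlin v)
  have hzero' : ∑ v ∈ hfin.toFinset,
      ((((e v * (J v : ℤ) : ℤ) : ℚ) / (Module.finrank k E : ℚ) : ℚ) : QZ) = 0 := by
    rw [coe_sum_QZ, AddCircle.coe_eq_zero_iff]
    obtain ⟨c, hc⟩ := hdvd
    refine ⟨c, ?_⟩
    rw [← Finset.sum_div]
    have h4 : (∑ v ∈ hfin.toFinset, ((e v * (J v : ℤ) : ℤ) : ℚ)) =
        (Module.finrank k E : ℚ) * (c : ℚ) := by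
      have := congrArg (fun z : ℤ => (z : ℚ)) hc
      push_cast at this ⊢
      exact this
    rw [h4, mul_div_cancel_left₀ _ hn0]
    simp
  exact ((finsum_eq_sum_of_support_subset _ hsupp2).trans hsum).trans hzero'

end Arith

end Fermat.Agent.S55.H5
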