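/-
Program C (S55), package C8 (B4), support leaf for IDELE-TOWER (task 533) — helper5.

Group-level cores of `J_K ≅ (J_L)^N` and `C_K ≅ (C_L)^N` for a finite Galois extension `L/K` of
number fields with group `N = Gal(L/K)`, on helper88's finite ideles (`H88.ideleGroup`) and
helper29's inflation map `H29.ideleInflHom K L : J_K →* J_L`:

* `ideleInflHom_injective`        : `J_K → J_L` is injective;
* `exists_idele_of_invariant`     : an idele of `L` fixed by `Gal(L/K)` comes from `J_K`;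
* `eq_diag_of_infl_eq_diag`       : `J_K ∩ Lˣ = Kˣ`;
* `exists_infl_mul_diag`          : an idele of `L` whose class is fixed by `Gal(L/K)` is the
  product of an idele of `K` and a principal idele (Hilbert 90).
-/
import Fermat.Agent.S55.H29.C8Idele

set_option autoImplicit false

noncomputable section

namespace Fermat.Agent.S55.H5

open Fermat.Agent.S55.H88 Fermat.Agent.S55.H29

attribute [local instance] factOfPrimes

/-- If `σ • y = y * c` and `c = σ • d * d⁻¹`, then `y * d⁻¹` is fixed by `σ`. -/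
theorem smul_mul_inv_eq_of_coboundary {M G : Type*} [Monoid M] [CommGroup G]
    [MulDistribMulAction M G] (σ : M) (y d c : G) (h1 : σ • y = y * c)
    (h2 : c = σ • d * d⁻¹) : σ • (y * d⁻¹) = y * d⁻¹ := by
  rw [smul_mul', smul_inv', h1, h2, mul_assoc, mul_assoc, mul_comm d⁻¹, ← mul_assoc (σ • d),
    mul_inv_cancel, one_mul]

/-- The value of an idele at an embedding. -/
def ideleVal {K : Type} [Field K] (x : ideleGroup K) (q : Nat.Primes)
    (τ : K →+* PadicAlgCl (q : ℕ)) : PadicAlgCl (q : ℕ) :=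
  ((((x : ∀ q : Nat.Primes, (semiLocal (q : ℕ) K)ˣ) q : (semiLocal (q : ℕ) K)ˣ) :
    semiLocal (q : ℕ) K) : (K →+* PadicAlgCl (q : ℕ)) → PadicAlgCl (q : ℕ)) τ

theorem ideleVal_ext {K : Type} [Field K] {x y : ideleGroup K}
    (h : ∀ (q : Nat.Primes) (τ : K →+* PadicAlgCl (q : ℕ)), ideleVal x q τ = ideleVal y q τ) :
    x = y :=
  Subtype.ext (funext fun q => Units.ext (Subtype.ext (funext fun τ => h q τ)))

theorem ideleVal_mul {K : Type} [Field K] (x y : ideleGroup K) (q : Nat.Primes)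
    (τ : K →+* PadicAlgCl (q : ℕ)) :
    ideleVal (x * y) q τ = ideleVal x q τ * ideleVal y q τ := rfl

theorem ideleVal_diag {K : Type} [Field K] [NumberField K] (u : Kˣ) (q : Nat.Primes)
    (τ : K →+* PadicAlgCl (q : ℕ)) : ideleVal (ideleDiagHom K u) q τ = τ (u : K) := rfl

section Tower

variable (K L : Type) [Field K] [Field L] [Algebra K L]

theorem ideleVal_infl (x : ideleGroup K) (q : Nat.Primes) (τ : L →+* PadicAlgCl (q : ℕ)) :
    ideleVal (ideleInflHom K L x) q τ = ideleVal x q (τ.comp (algebraMap K L)) := rfl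

theorem ideleVal_smul (σ : L ≃ₐ[K] L) (y : ideleGroup L) (q : Nat.Primes)
    (τ : L →+* PadicAlgCl (q : ℕ)) :
    ideleVal (σ • y) q τ = ideleVal y q (τ.comp ((σ : L ≃+* L) : L →+* L)) := rfl

theorem semiLocalMap_injective (q : ℕ) [Fact q.Prime] [Algebra.IsAlgebraic K L] :
    Function.Injective (semiLocalMap q K L) := by
  intro a b h
  refine Subtype.ext (funext fun τ => ?_)
  obtain ⟨τ', rfl⟩ := exists_extend q (k := K) (K := L) τ
  exact congrArg (fun f : semiLocal q L => (f : (L →+* PadicAlgCl q) → PadicAlgCl q) τ') h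

/-- (QJ1) `J_K → J_L` is injective. -/
theorem ideleInflHom_injective [Algebra.IsAlgebraic K L] :
    Function.Injective (ideleInflHom K L) := by
  intro x y h
  refine ideleVal_ext fun q τ => ?_
  obtain ⟨τ', rfl⟩ := exists_extend (q : ℕ) (k := K) (K := L) τ
  exact congrArg (fun z : ideleGroup L => ideleVal z q τ') h

/-- (QJ2) An idele of `L` whose values are invariant under `Gal(L/K)` comes from `J_K`. -/
theorem exists_idele_of_invariant' [Normal K L] (y : ideleGroup L)
    (hy : ∀ (q : Nat.Primes) (σ : L ≃ₐ[K] L) (τ : L →+* PadicAlgCl (q : ℕ)),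
      ideleVal y q (τ.comp ((σ : L ≃+* L) : L →+* L)) = ideleVal y q τ) :
    ∃ x : ideleGroup K, ideleInflHom K L x = y := by
  have halg : Algebra.IsAlgebraic K L := inferInstance
  have h1 : ∀ q : Nat.Primes, ∃ u : (semiLocal (q : ℕ) K)ˣ,
      Units.map (semiLocalMap (q : ℕ) K L : semiLocal (q : ℕ) K →* semiLocal (q : ℕ) L) u =
        (y : ∀ q : Nat.Primes, (semiLocal (q : ℕ) L)ˣ) q := by
    intro q
    have hf : ∀ σ : L ≃ₐ[K] L,
        σ • (((y : ∀ q : Nat.Primes, (semiLocal (q : ℕ) L)ˣ) q : (semiLocal (q : ℕ) L)ˣ) :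
          semiLocal (q : ℕ) L) = ((y : ∀ q : Nat.Primes, (semiLocal (q : ℕ) L)ˣ) q :
            (semiLocal (q : ℕ) L)ˣ) :=
      fun σ => Subtype.ext (funext fun τ => hy q σ τ)
    have hu : ∀ σ : L ≃ₐ[K] L, σ • (y : ∀ q : Nat.Primes, (semiLocal (q : ℕ) L)ˣ) q =
        (y : ∀ q : Nat.Primes, (semiLocal (q : ℕ) L)ˣ) q := fun σ => Units.ext (hf σ)
    have hg : ∀ σ : L ≃ₐ[K] L,
        σ • ((((y : ∀ q : Nat.Primes, (semiLocal (q : ℕ) L)ˣ) q)⁻¹ : (semiLocal (q : ℕ) L)ˣ) :
          semiLocal (q : ℕ) L) = ((((y : ∀ q : Nat.Primes, (semiLocal (q : ℕ) L)ˣ) q)⁻¹ :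
            (semiLocal (q : ℕ) L)ˣ) : semiLocal (q : ℕ) L) := by
      intro σ
      have h2 : σ • ((y : ∀ q : Nat.Primes, (semiLocal (q : ℕ) L)ˣ) q)⁻¹ =
          ((y : ∀ q : Nat.Primes, (semiLocal (q : ℕ) L)ˣ) q)⁻¹ := by
        rw [smul_inv', hu σ]
      exact congrArg Units.val h2
    obtain ⟨f₀, hf₀⟩ := exists_semiLocalMap_eq (q : ℕ) (k := K) (K := L) _ hf
    obtain ⟨g₀, hg₀⟩ := exists_semiLocalMap_eq (q : ℕ) (k := K) (K := L) _ hg
    have hinj := semiLocalMap_injective K L (q : ℕ)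
    refine ⟨⟨f₀, g₀, hinj ?_, hinj ?_⟩, Units.ext hf₀⟩
    · rw [map_mul, hf₀, hg₀, map_one]
      exact Units.mul_inv _
    · rw [map_mul, hf₀, hg₀, map_one]
      exact Units.inv_mul _
  choose u hu using h1
  refine ⟨⟨u, ?_⟩, Subtype.ext (funext hu)⟩
  refine Set.Finite.subset y.2 fun q hq h => hq fun τ => ?_
  obtain ⟨τ', rfl⟩ := exists_extend (q : ℕ) (k := K) (K := L) τ
  have h2 := h τ'
  rw [← hu q] at h2
  exact h2

/-- (QJ2) An idele of `L` fixed by `Gal(L/K)` comes from `J_K`. -/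
theorem exists_idele_of_invariant [Normal K L] (y : ideleGroup L)
    (hy : ∀ σ : L ≃ₐ[K] L, σ • y = y) : ∃ x : ideleGroup K, ideleInflHom K L x = y :=
  exists_idele_of_invariant' K L y fun q σ τ =>
    congrArg (fun z : ideleGroup L => ideleVal z q τ) (hy σ)

variable [NumberField K] [NumberField L]

omit [NumberField K] in
theorem smul_ideleDiagHom (σ : L ≃ₐ[K] L) (u : Lˣ) :
    σ • ideleDiagHom L u = ideleDiagHom L (σ • u) := rfl

/-- (QC1) `J_K ∩ Lˣ = Kˣ`. -/
theorem eq_diag_of_infl_eq_diag [IsGalois K L] (x : ideleGroup K) (u : Lˣ)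
    (h : ideleInflHom K L x = ideleDiagHom L u) :
    ∃ u₀ : Kˣ, Units.map (algebraMap K L : K →* L) u₀ = u ∧ x = ideleDiagHom K u₀ := by
  have halg : Algebra.IsAlgebraic K L := inferInstance
  have hfix : ∀ σ : L ≃ₐ[K] L, σ (u : L) = u := by
    intro σ
    have h1 : σ • ideleDiagHom L u = ideleDiagHom L u := by
      rw [← h]
      refine ideleVal_ext fun q τ => ?_
      show ideleVal x q ((τ.comp ((σ : L ≃+* L) : L →+* L)).comp (algebraMap K L)) =
        ideleVal x q (τ.comp (algebraMap K L))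
      congr 1
      exact RingHom.ext fun z => congrArg τ (σ.commutes z)
    rw [smul_ideleDiagHom] at h1
    exact congrArg Units.val (ideleDiagHom_injective L h1)
  obtain ⟨u₀', hu₀'⟩ := (IsGalois.mem_range_algebraMap_iff_fixed (F := K) (E := L) (u : L)).2 hfix
  have hne : u₀' ≠ 0 := by
    rintro rfl
    rw [map_zero] at hu₀'
    exact u.ne_zero hu₀'.symm
  refine ⟨Units.mk0 u₀' hne, Units.ext hu₀', ?_⟩
  apply ideleInflHom_injective K L
  rw [h]
  refine ideleVal_ext fun q τ => ?_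
  show τ (u : L) = τ (algebraMap K L u₀')
  rw [hu₀']

omit [NumberField K] in
/-- The correction factors of an idele whose class is `Gal(L/K)`-invariant form a
`1`-cocycle. -/
theorem isMulCocycle₁_of_smul_eq (y : ideleGroup L) (c : (L ≃ₐ[K] L) → Lˣ)
    (hc : ∀ σ : L ≃ₐ[K] L, σ • y = y * ideleDiagHom L (c σ)) :
    groupCohomology.IsMulCocycle₁ c := by
  intro σ ρ
  apply ideleDiagHom_injective L
  have h1 : (σ * ρ) • y = y * ideleDiagHom L (c (σ * ρ)) := hc _
  have h2 : (σ * ρ) • y = y * ideleDiagHom L (σ • c ρ * c σ) := by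
    rw [mul_smul, hc ρ, smul_mul', hc σ, smul_ideleDiagHom, map_mul, mul_assoc,
      mul_comm (ideleDiagHom L (c σ))]
  exact mul_left_cancel (h1.symm.trans h2)

/-- (QC2) An idele of `L` whose class modulo principal ideles is fixed by `Gal(L/K)` is the
product of an idele of `K` and a principal idele (Hilbert 90). -/
theorem exists_infl_mul_diag [IsGalois K L] (y : ideleGroup L)
    (hy : ∀ σ : L ≃ₐ[K] L, ∃ c : Lˣ, σ • y = y * ideleDiagHom L c) :
    ∃ (x : ideleGroup K) (b : Lˣ), y = ideleInflHom K L x * ideleDiagHom L b := by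
  choose c hc using hy
  obtain ⟨β, hβ⟩ := groupCohomology.isMulCoboundary₁_of_isMulCocycle₁_of_aut_to_units c
    (isMulCocycle₁_of_smul_eq K L y c hc)
  have hinv : ∀ σ : L ≃ₐ[K] L, σ • (y * (ideleDiagHom L β)⁻¹) = y * (ideleDiagHom L β)⁻¹ := by
    intro σ
    have e0 : ideleDiagHom L (c σ) = ideleDiagHom L (σ • β) * (ideleDiagHom L β)⁻¹ := by
      rw [← hβ σ, map_div, div_eq_mul_inv]
    exact smul_mul_inv_eq_of_coboundary σ y (ideleDiagHom L β) (ideleDiagHom L (c σ)) (hc σ) e0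
  obtain ⟨x, hx⟩ := exists_idele_of_invariant K L _ hinv
  exact ⟨x, β, hx ▸ (inv_mul_cancel_right y (ideleDiagHom L β)).symm⟩

end Tower

end Fermat.Agent.S55.H5
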