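/-
Program C (S55), package C8, leaf (CYCREC), helper6's spec `H6/RecCycloSpec.lean` — helper5.

* `frobCycloStatement : H6.FrobCycloStatement` (R-FROB), from `H5.cycloFrob`;
* `unrFormulaStatement : H6.UnrFormulaStatement` (R-UNR), from `H5.linvAt_cycClass_unram`
  (= helper18's `linvAt_cycClass_of_unram`).
-/
import Fermat.Agent.S55.H6.RecCycloSpec
import Fermat.Agent.S55.H5.CycloRecArith

set_option autoImplicit false

open CategoryTheory groupCohomology

noncomputable section

namespace Fermat.Agent.S55.H5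

open Fermat.Agent.S55.H66 Fermat.Agent.S55.H88

/-- (R-FROB) of helper6's spec. -/
theorem frobCycloStatement : H6.FrobCycloStatement := by
  intro k E F _ _ _ _ _ _ _ _ _ _ _ m _ q _ hq τ'
  obtain ⟨hunr, g, hg, hres⟩ := cycloFrob q k E F m hq τ'
  have hfd0 := H16.finiteDimensional_locBase q k E τ'
  have hfd1 := H16.finiteDimensional_locExt' q k E τ'
  have hgal := H16.isGalois_locExt' q k E τ'
  obtain ⟨Φ, hΦ, -, -⟩ := c3_frob q (locBase q k τ') (locExt q k τ') hunr
  exact ⟨hunr, Φ, g, hΦ, hg, (hres Φ hΦ).symm⟩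

/-- (R-UNR) of helper6's spec. -/
theorem unrFormulaStatement : H6.UnrFormulaStatement := by
  intro k E _ _ _ _ _ _ σ hσ q _ τ' hunr φ hφ i hi a
  have hord : orderOf σ = Module.finrank k E :=
    (orderOf_eq_card_of_forall_mem_zpowers hσ).trans (IsGalois.card_aut_eq_finrank k E)
  rw [linvAt_cycClass_unram q k E τ' σ hσ a hunr φ hφ i hi, hord, mul_comm]

end Fermat.Agent.S55.H5
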